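import Mathlib

set_option autoImplicit false

namespace Fermat.Agent.Lib.Helper7

open IsLocalRing Polynomial Matrix

section Quadratic

variable {A : Type*} [CommRing A] [IsLocalRing A]

/-- Uniqueness of a small root of a quadratic with unit linear coefficient. -/
theorem quad_root_unique {p₀ p₁ p₂ β β' : A} (hp₁ : IsUnit p₁)
    (hβ : β ∈ maximalIdeal A) (hβ' : β' ∈ maximalIdeal A)
    (h : p₀ + p₁ * β + p₂ * β ^ 2 = 0) (h' : p₀ + p₁ * β' + p₂ * β' ^ 2 = 0) : β = β' := by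
  have hu : IsUnit (p₁ + p₂ * (β + β')) := by
    by_contra hnu
    have hm : p₁ + p₂ * (β + β') ∈ maximalIdeal A := (mem_maximalIdeal _).mpr hnu
    have hm2 : p₂ * (β + β') ∈ maximalIdeal A :=
      Ideal.mul_mem_left _ _ (Ideal.add_mem _ hβ hβ')
    have : p₁ ∈ maximalIdeal A := by
      have := Ideal.sub_mem _ hm hm2
      simpa using this
    exact (mem_maximalIdeal _).mp this hp₁
  have hz : (β - β') * (p₁ + p₂ * (β + β')) = 0 := by
    have : (β - β') * (p₁ + p₂ * (β + β')) =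
        (p₀ + p₁ * β + p₂ * β ^ 2) - (p₀ + p₁ * β' + p₂ * β' ^ 2) := by ring
    rw [this, h, h', sub_zero]
  have := hu.mul_left_eq_zero.mp hz
  exact sub_eq_zero.mp this

/-- Existence of a small root of a quadratic with unit linear coefficient and small constant
coefficient, in a complete local ring. -/
theorem quad_root_exists [IsAdicComplete (maximalIdeal A) A] {p₀ p₁ p₂ : A}
    (hp₀ : p₀ ∈ maximalIdeal A) (hp₁ : IsUnit p₁) :
    ∃ β ∈ maximalIdeal A, p₀ + p₁ * β + p₂ * β ^ 2 = 0 := by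
  -- the monic polynomial `s^2 + p₁ s + p₂ p₀` has a root near `-p₁`
  let f : A[X] := X ^ 2 + C p₁ * X + C (p₂ * p₀)
  have hf : f.Monic := by
    have : f = X ^ 2 + (C p₁ * X + C (p₂ * p₀)) := by simp [f, add_assoc]
    rw [this]
    apply Polynomial.monic_X_pow_add
    refine lt_of_le_of_lt (degree_add_le _ _) ?_
    refine max_lt ?_ ?_
    · refine lt_of_le_of_lt (degree_C_mul_X_le _) ?_
      norm_num
    · refine lt_of_le_of_lt degree_C_le ?_
      norm_num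
  have hev : f.eval (-p₁) = p₂ * p₀ := by
    simp [f]; ring
  have hder : f.derivative.eval (-p₁) = -p₁ := by
    simp [f]; ring
  have h1 : f.eval (-p₁) ∈ maximalIdeal A := by
    rw [hev]; exact Ideal.mul_mem_left _ _ hp₀
  have h2 : IsUnit (Ideal.Quotient.mk (maximalIdeal A) (f.derivative.eval (-p₁))) := by
    rw [hder]
    exact (hp₁.neg).map _
  obtain ⟨s, hs, hs'⟩ := HenselianRing.is_henselian (I := maximalIdeal A) f hf (-p₁) h1 h2
  have hsu : IsUnit s := by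
    by_contra hnu
    have hm : s ∈ maximalIdeal A := (mem_maximalIdeal _).mpr hnu
    have : p₁ ∈ maximalIdeal A := by
      have := Ideal.sub_mem _ hm hs'
      simpa using this
    exact (mem_maximalIdeal _).mp this hp₁
  obtain ⟨u, rfl⟩ := hsu
  refine ⟨p₀ * ↑u⁻¹, Ideal.mul_mem_right _ _ hp₀, ?_⟩
  have hroot : (u : A) ^ 2 + p₁ * u + p₂ * p₀ = 0 := by
    have := hs
    simpa [f, Polynomial.IsRoot] using this
  have huu : (u : A) * ↑u⁻¹ = 1 := u.mul_inv
  have : p₀ + p₁ * (p₀ * ↑u⁻¹) + p₂ * (p₀ * ↑u⁻¹) ^ 2 =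
      p₀ * (↑u⁻¹) ^ 2 * ((u : A) ^ 2 + p₁ * u + p₂ * p₀) +
        p₀ * (1 - (u : A) * ↑u⁻¹) * (1 + (u : A) * ↑u⁻¹ + p₁ * ↑u⁻¹) := by ring
  rw [this, hroot, huu]; ring

end Quadratic


section TwoByTwo

variable {A : Type*} [CommRing A]

/-- The "adjugate" `tr M - M` of a `2 × 2` matrix. -/
def adj2 (M : Matrix (Fin 2) (Fin 2) A) : Matrix (Fin 2) (Fin 2) A := M.trace • (1 : Matrix (Fin 2) (Fin 2) A) - M

theorem mul_adj2 (M : Matrix (Fin 2) (Fin 2) A) : M * adj2 M = M.det • (1 : Matrix (Fin 2) (Fin 2) A) := by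
  ext i j
  fin_cases i <;> fin_cases j <;>
    simp [adj2, Matrix.mul_apply, Fin.sum_univ_two, Matrix.trace, Matrix.det_fin_two,
      Matrix.one_apply] <;> ring

theorem adj2_mul (M : Matrix (Fin 2) (Fin 2) A) : adj2 M * M = M.det • (1 : Matrix (Fin 2) (Fin 2) A) := by
  ext i j
  fin_cases i <;> fin_cases j <;>
    simp [adj2, Matrix.mul_apply, Fin.sum_univ_two, Matrix.trace, Matrix.det_fin_two,
      Matrix.one_apply] <;> ring

/-- `(1 + β M)(1 + β adj M) = (1 + β tr M + β² det M)`. -/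
theorem one_add_smul_mul (M : Matrix (Fin 2) (Fin 2) A) (β : A) :
    (1 + β • M) * (1 + β • adj2 M) =
      (1 + β * M.trace + β ^ 2 * M.det) • (1 : Matrix (Fin 2) (Fin 2) A) := by
  have h := mul_adj2 M
  have : (1 + β • M) * (1 + β • adj2 M) = 1 + β • (M + adj2 M) + (β ^ 2) • (M * adj2 M) := by
    simp only [add_mul, mul_add, one_mul, mul_one, smul_mul_assoc, mul_smul_comm, smul_smul,
      smul_add, pow_two]
    abel
  rw [this, h]
  have h2 : M + adj2 M = M.trace • (1 : Matrix (Fin 2) (Fin 2) A) := by simp [adj2]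
  rw [h2, smul_smul, smul_smul, add_smul, add_smul, one_smul]

theorem one_add_smul_mul' (M : Matrix (Fin 2) (Fin 2) A) (β : A) :
    (1 + β • adj2 M) * (1 + β • M) =
      (1 + β * M.trace + β ^ 2 * M.det) • (1 : Matrix (Fin 2) (Fin 2) A) := by
  have h := adj2_mul M
  have : (1 + β • adj2 M) * (1 + β • M) = 1 + β • (adj2 M + M) + (β ^ 2) • (adj2 M * M) := by
    simp only [add_mul, mul_add, one_mul, mul_one, smul_mul_assoc, mul_smul_comm, smul_smul,
      smul_add, pow_two]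
    abel
  rw [this, h]
  have h2 : adj2 M + M = M.trace • (1 : Matrix (Fin 2) (Fin 2) A) := by simp [adj2]
  rw [h2, smul_smul, smul_smul, add_smul, add_smul, one_smul]

/-- Expansion of `(1 + β adj M) N (1 + β M)`. -/
theorem conj_expand (M N : Matrix (Fin 2) (Fin 2) A) (β : A) :
    (1 + β • adj2 M) * N * (1 + β • M) =
      N + β • (M.trace • N - (M * N - N * M)) + (β ^ 2) • (adj2 M * N * M) := by
  have h1 : adj2 M * N + N * M = M.trace • N - (M * N - N * M) := by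
    simp only [adj2, sub_mul, smul_mul_assoc, one_mul]
    abel
  rw [← h1]
  simp only [add_mul, mul_add, one_mul, mul_one, smul_mul_assoc, mul_smul_comm, smul_smul,
    smul_add, pow_two]
  abel

end TwoByTwo

section Slice

variable {A : Type*} [CommRing A] [IsLocalRing A]

/-- The coefficients of the quadratic governing the `(a, b)` entry of `(1+βM)⁻¹ N (1+βM)`. -/
def sliceP₀ (N : Matrix (Fin 2) (Fin 2) A) (a b : Fin 2) (c : A) : A := N a b - c

def sliceP₁ (M N : Matrix (Fin 2) (Fin 2) A) (a b : Fin 2) (c : A) : A :=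
  M.trace * (N a b - c) - (M * N - N * M) a b

def sliceP₂ (M N : Matrix (Fin 2) (Fin 2) A) (a b : Fin 2) (c : A) : A :=
  (adj2 M * N * M) a b - c * M.det

theorem slice_quadratic (M N : Matrix (Fin 2) (Fin 2) A) (a b : Fin 2) (c β : A) :
    ((1 + β • adj2 M) * N * (1 + β • M)) a b - c * (1 + β * M.trace + β ^ 2 * M.det) =
      sliceP₀ N a b c + sliceP₁ M N a b c * β + sliceP₂ M N a b c * β ^ 2 := by
  rw [conj_expand]
  simp only [sliceP₀, sliceP₁, sliceP₂, Matrix.add_apply, Matrix.smul_apply, Matrix.sub_apply,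
    smul_eq_mul]
  ring

theorem isUnit_sliceP₁ {M N : Matrix (Fin 2) (Fin 2) A} {a b : Fin 2} {c : A}
    (hN : N a b - c ∈ maximalIdeal A) (hcomm : IsUnit ((M * N - N * M) a b)) :
    IsUnit (sliceP₁ M N a b c) := by
  by_contra hnu
  have hm : sliceP₁ M N a b c ∈ maximalIdeal A := (mem_maximalIdeal _).mpr hnu
  have h1 : M.trace * (N a b - c) ∈ maximalIdeal A := Ideal.mul_mem_left _ _ hN
  have : (M * N - N * M) a b ∈ maximalIdeal A := by
    have := Ideal.sub_mem _ h1 hm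
    simpa [sliceP₁] using this
  exact (mem_maximalIdeal _).mp this hcomm

theorem isUnit_one_add_of_mem {x : A} (hx : x ∈ maximalIdeal A) : IsUnit (1 + x) := by
  by_contra hnu
  have hm : 1 + x ∈ maximalIdeal A := (mem_maximalIdeal _).mpr hnu
  have : (1 : A) ∈ maximalIdeal A := by
    have := Ideal.sub_mem _ hm hx
    simpa using this
  exact (Ideal.ne_top_iff_one _).mp (IsLocalRing.maximalIdeal.isMaximal A).ne_top this

/-- For `β` in the maximal ideal, `1 + β M` is invertible with explicit inverse. -/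
noncomputable def smallUnit (M : Matrix (Fin 2) (Fin 2) A) (β : A) (hβ : β ∈ maximalIdeal A) :
    (Matrix (Fin 2) (Fin 2) A)ˣ :=
  let d : A := 1 + β * M.trace + β ^ 2 * M.det
  have hd : IsUnit d := by
    have : β * M.trace + β ^ 2 * M.det ∈ maximalIdeal A :=
      Ideal.add_mem _ (Ideal.mul_mem_right _ _ hβ)
        (Ideal.mul_mem_right _ _ (Ideal.pow_mem_of_mem _ hβ 2 (by norm_num)))
    have h := isUnit_one_add_of_mem this
    simpa [d, add_assoc] using h
  { val := 1 + β • M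
    inv := (↑hd.unit⁻¹ : A) • (1 + β • adj2 M)
    val_inv := by
      rw [mul_smul_comm, one_add_smul_mul, smul_smul]
      have : (↑hd.unit⁻¹ : A) * (1 + β * M.trace + β ^ 2 * M.det) = 1 := by
        have := hd.unit.inv_mul
        simpa [d] using this
      rw [this, one_smul]
    inv_val := by
      rw [smul_mul_assoc, one_add_smul_mul', smul_smul]
      have : (↑hd.unit⁻¹ : A) * (1 + β * M.trace + β ^ 2 * M.det) = 1 := by
        have := hd.unit.inv_mul
        simpa [d] using this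
      rw [this, one_smul] }

@[simp] theorem smallUnit_val (M : Matrix (Fin 2) (Fin 2) A) (β : A) (hβ : β ∈ maximalIdeal A) :
    (smallUnit M β hβ : Matrix (Fin 2) (Fin 2) A) = 1 + β • M := rfl

end Slice

section Conj

variable {A : Type*} [CommRing A] {G : Type*} [Monoid G]

local notation "M₂" => Matrix (Fin 2) (Fin 2)

/-- Conjugate of a matrix-valued monoid homomorphism: `g ↦ Q⁻¹ * r g * Q`. -/
def conjHom (Q : (M₂ A)ˣ) (r : G →* M₂ A) : G →* M₂ A where
  toFun g := ((Q⁻¹ : (M₂ A)ˣ) : M₂ A) * r g * (Q : M₂ A)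
  map_one' := by simp
  map_mul' g h := by
    have : (Q : M₂ A) * ((Q⁻¹ : (M₂ A)ˣ) : M₂ A) = 1 := Q.mul_inv
    calc ((Q⁻¹ : (M₂ A)ˣ) : M₂ A) * r (g * h) * (Q : M₂ A)
        = ((Q⁻¹ : (M₂ A)ˣ) : M₂ A) * r g * 1 * r h * (Q : M₂ A) := by
          rw [map_mul]; simp [mul_assoc]
      _ = ((Q⁻¹ : (M₂ A)ˣ) : M₂ A) * r g * (Q : M₂ A) *
            (((Q⁻¹ : (M₂ A)ˣ) : M₂ A) * r h * (Q : M₂ A)) := by
          rw [← this]; simp only [mul_assoc]

@[simp] theorem conjHom_apply (Q : (M₂ A)ˣ) (r : G →* M₂ A) (g : G) :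
    conjHom Q r g = ((Q⁻¹ : (M₂ A)ˣ) : M₂ A) * r g * (Q : M₂ A) := rfl

theorem conjHom_mul (P Q : (M₂ A)ˣ) (r : G →* M₂ A) :
    conjHom (P * Q) r = conjHom Q (conjHom P r) := by
  ext g : 1
  simp only [conjHom_apply, _root_.mul_inv_rev, Units.val_mul, mul_assoc]

/-- A matrix all of whose entries lie in an ideal. -/
def EntryMem (I : Ideal A) (X : M₂ A) : Prop := ∀ i j, X i j ∈ I

theorem EntryMem.add {I : Ideal A} {X Y : M₂ A} (hX : EntryMem I X)
    (hY : EntryMem I Y) : EntryMem I (X + Y) := fun i j => I.add_mem (hX i j) (hY i j)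

theorem EntryMem.sub {I : Ideal A} {X Y : M₂ A} (hX : EntryMem I X)
    (hY : EntryMem I Y) : EntryMem I (X - Y) := fun i j => I.sub_mem (hX i j) (hY i j)

theorem EntryMem.mul_left {I : Ideal A} {X : M₂ A} (hX : EntryMem I X)
    (Y : M₂ A) : EntryMem I (Y * X) := fun i j => by
  rw [Matrix.mul_apply]
  exact I.sum_mem fun k _ => I.mul_mem_left _ (hX k j)

theorem EntryMem.mul_right {I : Ideal A} {X : M₂ A} (hX : EntryMem I X)
    (Y : M₂ A) : EntryMem I (X * Y) := fun i j => by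
  rw [Matrix.mul_apply]
  exact I.sum_mem fun k _ => I.mul_mem_right _ (hX i k)

theorem EntryMem.smul {I : Ideal A} {X : M₂ A} (hX : EntryMem I X)
    (c : A) : EntryMem I (c • X) := fun i j => by
  rw [Matrix.smul_apply]; exact I.mul_mem_left _ (hX i j)

theorem EntryMem.smul_of_mem {I : Ideal A} {c : A} (hc : c ∈ I)
    (X : M₂ A) : EntryMem I (c • X) := fun i j => by
  rw [Matrix.smul_apply]; exact I.mul_mem_right _ hc

/-- Conjugating by a unit congruent to `1` does not change a matrix modulo the ideal. -/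
theorem entryMem_conj_sub {I : Ideal A} (Q : (M₂ A)ˣ)
    (hQ : EntryMem I ((Q : M₂ A) - 1)) (X : M₂ A) :
    EntryMem I (((Q⁻¹ : (M₂ A)ˣ) : M₂ A) * X * (Q : M₂ A) - X) := by
  have h : (((Q⁻¹ : (M₂ A)ˣ) : M₂ A) * X * (Q : M₂ A) - X) =
      ((Q⁻¹ : (M₂ A)ˣ) : M₂ A) * (X * ((Q : M₂ A) - 1) - ((Q : M₂ A) - 1) * X) := by
    have h1 : ((Q⁻¹ : (M₂ A)ˣ) : M₂ A) * (Q : M₂ A) = 1 := Q.inv_mul
    simp only [mul_sub, sub_mul, mul_one, one_mul]
    rw [← mul_assoc, ← mul_assoc ((Q⁻¹ : (M₂ A)ˣ) : M₂ A) (Q : M₂ A) X, h1, one_mul]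
    abel
  rw [h]
  exact ((hQ.mul_left X).sub (hQ.mul_right X)).mul_left _

end Conj

section NF

variable {A : Type*} [CommRing A] [IsLocalRing A] {G : Type*} [Monoid G]

local notation "M₂" => Matrix (Fin 2) (Fin 2)

/-- The slice (normal form) conditions: `r g₀ e₁ = e₂` and a prescribed entry of `r g₁`. -/
structure InSlice (r : G →* M₂ A) (g₀ g₁ : G) (a b : Fin 2) (c : A) : Prop where
  h00 : r g₀ 0 0 = 0
  h10 : r g₀ 1 0 = 1
  hab : r g₁ a b = c

theorem isUnit_add_of_mem {x y : A} (hx : IsUnit x) (hy : y ∈ maximalIdeal A) : IsUnit (x + y) := by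
  by_contra hnu
  have hm : x + y ∈ maximalIdeal A := (mem_maximalIdeal _).mpr hnu
  have : x ∈ maximalIdeal A := by
    have := Ideal.sub_mem _ hm hy
    simpa using this
  exact (mem_maximalIdeal _).mp this hx

/-- The change of basis `[e₁ | M e₁]`. -/
noncomputable def firstUnit (M : M₂ A) (hu : IsUnit (M 1 0)) : (M₂ A)ˣ where
  val := !![1, M 0 0; 0, M 1 0]
  inv := !![1, -(M 0 0) * ↑hu.unit⁻¹; 0, ↑hu.unit⁻¹]
  val_inv := by
    have h : M 1 0 * ↑hu.unit⁻¹ = 1 := hu.mul_val_inv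
    ext i j
    fin_cases i <;> fin_cases j <;>
      simp [Matrix.mul_apply, Fin.sum_univ_two, h]
  inv_val := by
    have h : (↑hu.unit⁻¹ : A) * M 1 0 = 1 := hu.val_inv_mul
    ext i j
    fin_cases i <;> fin_cases j <;>
      simp [Matrix.mul_apply, Fin.sum_univ_two, h, mul_assoc]

theorem firstUnit_conj_col (M : M₂ A) (hu : IsUnit (M 1 0)) :
    ((((firstUnit M hu)⁻¹ : (M₂ A)ˣ) : M₂ A) * M * (firstUnit M hu : M₂ A)) 0 0 = 0 ∧
    ((((firstUnit M hu)⁻¹ : (M₂ A)ˣ) : M₂ A) * M * (firstUnit M hu : M₂ A)) 1 0 = 1 := by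
  have h : (↑hu.unit⁻¹ : A) * M 1 0 = 1 := hu.val_inv_mul
  have hinv : (((firstUnit M hu)⁻¹ : (M₂ A)ˣ) : M₂ A) =
      !![1, -(M 0 0) * ↑hu.unit⁻¹; 0, ↑hu.unit⁻¹] := rfl
  have hval : (firstUnit M hu : M₂ A) = !![1, M 0 0; 0, M 1 0] := rfl
  rw [hinv, hval]
  constructor
  · simp only [Matrix.mul_apply, Fin.sum_univ_two]
    simp
    try linear_combination (-(M 0 0)) * h
  · simp only [Matrix.mul_apply, Fin.sum_univ_two]
    simp
    try linear_combination h

theorem entryMem_firstUnit_sub_one (M : M₂ A) (hu : IsUnit (M 1 0))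
    (h00 : M 0 0 ∈ maximalIdeal A) (h10 : M 1 0 - 1 ∈ maximalIdeal A) :
    EntryMem (maximalIdeal A) ((firstUnit M hu : M₂ A) - 1) := by
  have hval : (firstUnit M hu : M₂ A) = !![1, M 0 0; 0, M 1 0] := rfl
  rw [hval]
  intro i j
  fin_cases i <;> fin_cases j <;> simp [h00, h10]

theorem nf_exists [IsAdicComplete (maximalIdeal A) A] (r : G →* M₂ A) (g₀ g₁ : G) (a b : Fin 2)
    (c : A) (h00 : r g₀ 0 0 ∈ maximalIdeal A) (h10 : r g₀ 1 0 - 1 ∈ maximalIdeal A)
    (hab : r g₁ a b - c ∈ maximalIdeal A)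
    (hcomm : IsUnit ((r g₀ * r g₁ - r g₁ * r g₀) a b)) :
    ∃ Q : (M₂ A)ˣ, EntryMem (maximalIdeal A) ((Q : M₂ A) - 1) ∧
      InSlice (conjHom Q r) g₀ g₁ a b c := by
  -- Step 1: make `r g₀` send `e₁` to `e₂`.
  have hu : IsUnit (r g₀ 1 0) := by
    have := isUnit_one_add_of_mem h10
    simpa using this
  set P₁ := firstUnit (r g₀) hu with hP₁def
  have hP₁ : EntryMem (maximalIdeal A) ((P₁ : M₂ A) - 1) :=
    entryMem_firstUnit_sub_one _ hu h00 h10
  set r₁ := conjHom P₁ r with hr₁def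
  set M₁ := r₁ g₀ with hM₁def
  set N₁ := r₁ g₁ with hN₁def
  obtain ⟨hM00, hM10⟩ : M₁ 0 0 = 0 ∧ M₁ 1 0 = 1 := firstUnit_conj_col (r g₀) hu
  have hab₁ : N₁ a b - c ∈ maximalIdeal A := by
    have h1 := entryMem_conj_sub P₁ hP₁ (r g₁) a b
    have : N₁ a b - c = (N₁ - r g₁) a b + (r g₁ a b - c) := by
      simp [Matrix.sub_apply]
    rw [this]
    exact Ideal.add_mem _ h1 hab
  have hcomm₁ : IsUnit ((M₁ * N₁ - N₁ * M₁) a b) := by
    have hconj : M₁ * N₁ - N₁ * M₁ =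
        ((P₁⁻¹ : (M₂ A)ˣ) : M₂ A) * (r g₀ * r g₁ - r g₁ * r g₀) * (P₁ : M₂ A) := by
      have h1 : (P₁ : M₂ A) * ((P₁⁻¹ : (M₂ A)ˣ) : M₂ A) = 1 := P₁.mul_inv
      have e1 : M₁ * N₁ = ((P₁⁻¹ : (M₂ A)ˣ) : M₂ A) * (r g₀ * r g₁) * (P₁ : M₂ A) := by
        rw [hM₁def, hN₁def, ← map_mul, hr₁def, conjHom_apply, map_mul]
      have e2 : N₁ * M₁ = ((P₁⁻¹ : (M₂ A)ˣ) : M₂ A) * (r g₁ * r g₀) * (P₁ : M₂ A) := by
        rw [hM₁def, hN₁def, ← map_mul, hr₁def, conjHom_apply, map_mul]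
      rw [e1, e2, mul_sub, sub_mul]
    have h2 := entryMem_conj_sub P₁ hP₁ (r g₀ * r g₁ - r g₁ * r g₀) a b
    rw [← hconj] at h2
    have : (M₁ * N₁ - N₁ * M₁) a b =
        (r g₀ * r g₁ - r g₁ * r g₀) a b +
          ((M₁ * N₁ - N₁ * M₁) - (r g₀ * r g₁ - r g₁ * r g₀)) a b := by
      simp [Matrix.sub_apply]
    rw [this]
    exact isUnit_add_of_mem hcomm h2
  -- Step 2: solve the quadratic.
  obtain ⟨β, hβ, hroot⟩ := quad_root_exists (p₀ := sliceP₀ N₁ a b c)
    (p₁ := sliceP₁ M₁ N₁ a b c) (p₂ := sliceP₂ M₁ N₁ a b c) hab₁ (isUnit_sliceP₁ hab₁ hcomm₁)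
  set Q₂ := smallUnit M₁ β hβ with hQ₂def
  refine ⟨P₁ * Q₂, ?_, ?_⟩
  · have : ((P₁ * Q₂ : (M₂ A)ˣ) : M₂ A) - 1 =
        ((P₁ : M₂ A) - 1) * (Q₂ : M₂ A) + ((Q₂ : M₂ A) - 1) := by
      rw [Units.val_mul, sub_mul, one_mul]; abel
    rw [this]
    refine (hP₁.mul_right _).add ?_
    have : (Q₂ : M₂ A) - 1 = β • M₁ := by
      rw [hQ₂def, smallUnit_val]; abel
    rw [this]
    exact EntryMem.smul_of_mem hβ _
  · rw [conjHom_mul]
    have hQ₂val : (Q₂ : M₂ A) = 1 + β • M₁ := rfl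
    have hinvmul : ((Q₂⁻¹ : (M₂ A)ˣ) : M₂ A) * (Q₂ : M₂ A) = 1 := Q₂.inv_mul
    have hmulinv : (Q₂ : M₂ A) * ((Q₂⁻¹ : (M₂ A)ˣ) : M₂ A) = 1 := Q₂.mul_inv
    -- `Q₂` commutes with `M₁`
    have hcommM : M₁ * (Q₂ : M₂ A) = (Q₂ : M₂ A) * M₁ := by
      rw [hQ₂val]; simp [mul_add, add_mul]
    have hM : (conjHom Q₂ r₁) g₀ = M₁ := by
      rw [conjHom_apply, mul_assoc, ← hM₁def, hcommM, ← mul_assoc, hinvmul, one_mul]
    -- the `(a, b)` entry
    set X := (conjHom Q₂ r₁) g₁ with hXdef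
    have hX : (Q₂ : M₂ A) * X = N₁ * (Q₂ : M₂ A) := by
      rw [hXdef, conjHom_apply, ← mul_assoc, ← mul_assoc, hmulinv, one_mul]
    have hdX : (1 + β * M₁.trace + β ^ 2 * M₁.det) • X =
        (1 + β • adj2 M₁) * N₁ * (1 + β • M₁) := by
      calc (1 + β * M₁.trace + β ^ 2 * M₁.det) • X
          = ((1 + β * M₁.trace + β ^ 2 * M₁.det) • (1 : M₂ A)) * X := by
            rw [smul_mul_assoc, one_mul]
        _ = (1 + β • adj2 M₁) * (1 + β • M₁) * X := by rw [one_add_smul_mul']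
        _ = (1 + β • adj2 M₁) * ((Q₂ : M₂ A) * X) := by rw [mul_assoc, hQ₂val]
        _ = (1 + β • adj2 M₁) * (N₁ * (Q₂ : M₂ A)) := by rw [hX]
        _ = (1 + β • adj2 M₁) * N₁ * (1 + β • M₁) := by rw [← mul_assoc, hQ₂val]
    have hd : IsUnit (1 + β * M₁.trace + β ^ 2 * M₁.det) := by
      have : β * M₁.trace + β ^ 2 * M₁.det ∈ maximalIdeal A :=
        Ideal.add_mem _ (Ideal.mul_mem_right _ _ hβ)
          (Ideal.mul_mem_right _ _ (Ideal.pow_mem_of_mem _ hβ 2 (by norm_num)))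
      have h := isUnit_one_add_of_mem this
      simpa [add_assoc] using h
    have hq := slice_quadratic M₁ N₁ a b c β
    rw [hroot, ← hdX, Matrix.smul_apply, smul_eq_mul, sub_eq_zero, mul_comm c] at hq
    refine ⟨?_, ?_, hd.mul_left_cancel hq⟩
    · rw [hM]; exact hM00
    · rw [hM]; exact hM10

/-- Uniqueness of the normal form: two slice representations intertwined by a matrix `Q` which is
scalar modulo the maximal ideal are equal, and `Q` is scalar. -/
theorem nf_unique (r r' : G →* M₂ A) (g₀ g₁ : G) (a b : Fin 2) (c : A)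
    (hr : InSlice r g₀ g₁ a b c) (hr' : InSlice r' g₀ g₁ a b c)
    (hcomm : IsUnit ((r g₀ * r g₁ - r g₁ * r g₀) a b))
    (Q : M₂ A) (hQ : ∀ g, Q * r' g = r g * Q) (hQ00 : IsUnit (Q 0 0))
    (hQ10 : Q 1 0 ∈ maximalIdeal A) :
    r' = r ∧ Q = Q 0 0 • (1 : M₂ A) := by
  set M := r g₀ with hMdef
  set N := r g₁ with hNdef
  -- (i) shape of `Q`
  have hcol : ∀ i, Q i 1 = M i 0 * Q 0 0 + M i 1 * Q 1 0 := by
    intro i
    have h := congrFun (congrFun (hQ g₀) i) 0
    simp only [Matrix.mul_apply, Fin.sum_univ_two, hr'.h00, hr'.h10, mul_zero, mul_one,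
      zero_add] at h
    exact h
  have hQshape : Q = Q 0 0 • (1 : M₂ A) + Q 1 0 • M := by
    ext i j
    fin_cases i <;> fin_cases j
    · simp [hMdef, hr.h00]
    · have := hcol 0
      simp only [hMdef, hr.h00, zero_mul, zero_add] at this
      simp [this, hMdef, mul_comm]
    · simp [hMdef, hr.h10]
    · have := hcol 1
      simp only [hMdef, hr.h10, one_mul] at this
      simp [this, hMdef, mul_comm]
  -- (ii) `β`
  obtain ⟨u, hu⟩ := hQ00
  set β := Q 1 0 * ↑u⁻¹ with hβdef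
  have hβ : β ∈ maximalIdeal A := Ideal.mul_mem_right _ _ hQ10
  have huβ : (u : A) * β = Q 1 0 := by
    rw [hβdef, mul_comm (Q 1 0), ← mul_assoc, u.mul_inv, one_mul]
  have hQ' : Q = (u : A) • (1 + β • M) := by
    rw [smul_add, smul_smul, huβ, hu]; exact hQshape
  -- (iii)
  have hint : (1 + β • M) * r' g₁ = N * (1 + β • M) := by
    have h := hQ g₁
    rw [hQ', smul_mul_assoc, mul_smul_comm] at h
    have h2 := congrArg (fun X => (↑u⁻¹ : A) • X) h
    simpa [smul_smul] using h2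
  -- (iv)
  have hdN : (1 + β * M.trace + β ^ 2 * M.det) • r' g₁ =
      (1 + β • adj2 M) * N * (1 + β • M) := by
    calc (1 + β * M.trace + β ^ 2 * M.det) • r' g₁
        = ((1 + β * M.trace + β ^ 2 * M.det) • (1 : M₂ A)) * r' g₁ := by
          rw [smul_mul_assoc, one_mul]
      _ = (1 + β • adj2 M) * (1 + β • M) * r' g₁ := by rw [one_add_smul_mul']
      _ = (1 + β • adj2 M) * (N * (1 + β • M)) := by rw [mul_assoc, hint]
      _ = (1 + β • adj2 M) * N * (1 + β • M) := by rw [← mul_assoc]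
  have hq := slice_quadratic M N a b c β
  rw [← hdN, Matrix.smul_apply, smul_eq_mul, hr'.hab, mul_comm c, sub_self] at hq
  have hp₀ : sliceP₀ N a b c = 0 := by simp [sliceP₀, hNdef, hr.hab]
  have hp₁ : IsUnit (sliceP₁ M N a b c) := by
    refine isUnit_sliceP₁ ?_ hcomm
    rw [hNdef, hr.hab, sub_self]; exact Ideal.zero_mem _
  -- (v)
  have hβ0 : β = 0 := by
    refine quad_root_unique (p₀ := sliceP₀ N a b c) (p₂ := sliceP₂ M N a b c) hp₁ hβ
      (Ideal.zero_mem _) hq.symm ?_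
    simp [hp₀]
  -- (vi)
  have hQ10' : Q 1 0 = 0 := by rw [← huβ, hβ0, mul_zero]
  have hQs : Q = Q 0 0 • (1 : M₂ A) := by
    rw [hQshape, hQ10', zero_smul, add_zero]
    simp
  refine ⟨?_, hQs⟩
  ext g : 1
  have h := hQ g
  rw [hQs, smul_mul_assoc, mul_smul_comm, one_mul, mul_one, ← hu] at h
  have h2 := congrArg (fun X => (↑u⁻¹ : A) • X) h
  simpa [smul_smul] using h2

end NF

end Fermat.Agent.Lib.Helper7
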