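/-
Ring lemmas for S53 (piece (E)): for a complete Noetherian local ring `R` and a finite index
type `σ`, the power series ring `MvPowerSeries σ R` is complete with respect to its maximal
ideal; finiteness of its quotients by powers of the maximal ideal; approximation by polynomials.
Mathlib-only.
-/
import Mathlib

set_option autoImplicit false
set_option linter.unusedSectionVars false
set_option linter.style.haveILetI false

namespace Fermat.Agent.Lib.Helper7

open IsLocalRing MvPowerSeries

section Coeff

variable {σ : Type*} {R : Type*} [CommRing R]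

/-- The ideal of power series whose coefficient at `α` lies in `I ^ (N - deg α)`. -/
def coeffIdeal (σ : Type*) {R : Type*} [CommRing R] (I : Ideal R) (N : ℕ) :
    Ideal (MvPowerSeries σ R) where
  carrier := {f | ∀ α : σ →₀ ℕ, coeff α f ∈ I ^ (N - Finsupp.degree α)}
  add_mem' := by
    intro a b ha hb α
    rw [map_add]
    exact Ideal.add_mem _ (ha α) (hb α)
  zero_mem' := by
    intro α
    simp
  smul_mem' := by
    intro c f hf α
    classical
    rw [smul_eq_mul, coeff_mul]
    refine Ideal.sum_mem _ fun p hp => ?_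
    have hp' := Finset.HasAntidiagonal.mem_antidiagonal.mp hp
    have hdeg : Finsupp.degree p.2 ≤ Finsupp.degree α := by
      rw [← hp', map_add]
      exact Nat.le_add_left _ _
    exact Ideal.mul_mem_left _ _ (Ideal.pow_le_pow_right (by omega) (hf p.2))

theorem mem_coeffIdeal {I : Ideal R} {N : ℕ} {f : MvPowerSeries σ R} :
    f ∈ coeffIdeal σ I N ↔ ∀ α : σ →₀ ℕ, coeff α f ∈ I ^ (N - Finsupp.degree α) := Iff.rfl

theorem coeffIdeal_zero (I : Ideal R) : coeffIdeal σ I 0 = ⊤ := by
  rw [Ideal.eq_top_iff_one, mem_coeffIdeal]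
  intro α
  simp

theorem coeffIdeal_mul_le (I : Ideal R) (a b : ℕ) :
    coeffIdeal σ I a * coeffIdeal σ I b ≤ coeffIdeal σ I (a + b) := by
  classical
  rw [Ideal.mul_le]
  intro f hf g hg α
  rw [coeff_mul]
  refine Ideal.sum_mem _ fun p hp => ?_
  have hp' := Finset.HasAntidiagonal.mem_antidiagonal.mp hp
  have hdeg : Finsupp.degree p.1 + Finsupp.degree p.2 = Finsupp.degree α := by
    rw [← hp', map_add]
  have h1 := Ideal.mul_mem_mul (hf p.1) (hg p.2)
  rw [← pow_add] at h1
  exact Ideal.pow_le_pow_right (by omega) h1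

theorem pow_le_coeffIdeal (I : Ideal R) (J : Ideal (MvPowerSeries σ R))
    (hJ : J ≤ coeffIdeal σ I 1) (N : ℕ) : J ^ N ≤ coeffIdeal σ I N := by
  induction N with
  | zero => rw [coeffIdeal_zero]; exact le_top
  | succ n ih =>
    rw [pow_succ]
    exact (Ideal.mul_mono ih hJ).trans (coeffIdeal_mul_le I n 1)

theorem maximalIdeal_le_coeffIdeal_one [IsLocalRing R] :
    maximalIdeal (MvPowerSeries σ R) ≤ coeffIdeal σ (maximalIdeal R) 1 := by
  intro f hf α
  by_cases hα : Finsupp.degree α = 0
  · have hα0 : α = 0 := by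
      ext i
      have := (Finsupp.degree_eq_zero_iff α).mp hα
      simp [this]
    rw [hα, Nat.sub_zero, pow_one, hα0, coeff_zero_eq_constantCoeff]
    rw [mem_maximalIdeal, mem_nonunits_iff, isUnit_iff_constantCoeff] at hf
    exact hf
  · have : 1 - Finsupp.degree α = 0 := by omega
    rw [this, pow_zero, Ideal.one_eq_top]
    exact Submodule.mem_top

/-- Coefficients of elements of `𝔫 ^ N` : the coefficient at `α` lies in `𝔪 ^ (N - deg α)`. -/
theorem coeff_mem_of_mem_maximalIdeal_pow [IsLocalRing R] {N : ℕ} {f : MvPowerSeries σ R}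
    (hf : f ∈ maximalIdeal (MvPowerSeries σ R) ^ N) (α : σ →₀ ℕ) :
    coeff α f ∈ maximalIdeal R ^ (N - Finsupp.degree α) :=
  pow_le_coeffIdeal _ _ maximalIdeal_le_coeffIdeal_one N hf α

end Coeff

section XPow

variable {σ : Type*} {R : Type*} [CommRing R] [Finite σ]

theorem map_span_X :
    Ideal.map (toAdicCompletionAlgEquiv σ R).toRingEquiv (Ideal.span (Set.range X)) =
    (MvPolynomial.idealOfVars σ R).map (algebraMap (MvPolynomial σ R)
      (AdicCompletion (MvPolynomial.idealOfVars σ R) (MvPolynomial σ R))) := by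
  simp_rw [Ideal.map_span, ← Set.range_comp]
  congr 2; ext1
  simp [AdicCompletion.algebraMap_apply, ← MvPolynomial.coe_X, toAdicCompletion_coe]

theorem mem_span_X_pow_of_coeff_eq_zero {n : ℕ} {f : MvPowerSeries σ R}
    (hf : ∀ α : σ →₀ ℕ, Finsupp.degree α < n → coeff α f = 0) :
    f ∈ (Ideal.span (Set.range (X : σ → MvPowerSeries σ R))) ^ n := by
  set e := (toAdicCompletionAlgEquiv σ R).toRingEquiv with he
  have hbij : Function.Bijective e := e.bijective
  rw [← Ideal.comap_map_of_bijective e hbij (I := (Ideal.span (Set.range (X : σ → MvPowerSeries σ R))) ^ n),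
    Ideal.mem_comap, Ideal.map_pow, map_span_X, ← Ideal.map_pow]
  have h1 := Ideal.smul_top_eq_map (R := MvPolynomial σ R)
    (S := AdicCompletion (MvPolynomial.idealOfVars σ R) (MvPolynomial σ R))
    (MvPolynomial.idealOfVars σ R ^ n)
  have h2 : e f ∈ (MvPolynomial.idealOfVars σ R ^ n • ⊤ :
      Submodule (MvPolynomial σ R) (AdicCompletion (MvPolynomial.idealOfVars σ R) (MvPolynomial σ R))) := by
    rw [AdicCompletion.pow_smul_top_eq_ker_eval (MvPolynomial.idealOfVars_fg σ R), LinearMap.mem_ker,
      AdicCompletion.eval_apply]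
    show ((toAdicCompletion σ R) f).val n = 0
    rw [toAdicCompletion_apply_eq_mk_truncTotal]
    have : truncTotal n f = 0 := by
      ext α
      rw [MvPolynomial.coeff_zero]
      by_cases hα : Finsupp.degree α < n
      · rw [coeff_truncTotal _ hα, hf α hα]
      · exact coeff_truncTotal_eq_zero _ (not_lt.mp hα)
    rw [this, map_zero]
  rw [h1] at h2
  exact h2

/-- Approximation by polynomials modulo powers of the ideal generated by the variables. -/
theorem sub_truncTotal_mem_span_X_pow (f : MvPowerSeries σ R) (N : ℕ) :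
    f - (truncTotal N f : MvPolynomial σ R) ∈
      Ideal.span (Set.range (X : σ → MvPowerSeries σ R)) ^ N := by
  refine mem_span_X_pow_of_coeff_eq_zero ?_
  intro α hα
  rw [map_sub, MvPolynomial.coeff_coe, coeff_truncTotal _ hα, sub_self]

end XPow

section Complete

variable {σ : Type*} {R : Type*} [CommRing R]

section Local
variable [IsLocalRing R]

theorem map_C_maximalIdeal_le :
    (maximalIdeal R).map (C : R →+* MvPowerSeries σ R) ≤ maximalIdeal (MvPowerSeries σ R) := by
  rw [Ideal.map_le_iff_le_comap]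
  intro a ha
  rw [Ideal.mem_comap, mem_maximalIdeal, mem_nonunits_iff, isUnit_iff_constantCoeff, constantCoeff_C]
  exact ha

theorem span_X_le_maximalIdeal :
    Ideal.span (Set.range (X : σ → MvPowerSeries σ R)) ≤ maximalIdeal (MvPowerSeries σ R) := by
  rw [Ideal.span_le]
  rintro _ ⟨i, rfl⟩
  rw [SetLike.mem_coe, mem_maximalIdeal, mem_nonunits_iff, isUnit_iff_constantCoeff, constantCoeff_X]
  exact not_isUnit_zero

theorem C_mem_maximalIdeal_pow {N : ℕ} {a : R} (ha : a ∈ maximalIdeal R ^ N) :
    (C a : MvPowerSeries σ R) ∈ maximalIdeal (MvPowerSeries σ R) ^ N := by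
  have h1 : (C a : MvPowerSeries σ R) ∈ (maximalIdeal R ^ N).map (C : R →+* MvPowerSeries σ R) :=
    Ideal.mem_map_of_mem _ ha
  rw [Ideal.map_pow] at h1
  exact Ideal.pow_right_mono map_C_maximalIdeal_le N h1

theorem coe_mem_maximalIdeal_pow {N : ℕ} {p : MvPolynomial σ R}
    (hp : ∀ α, MvPolynomial.coeff α p ∈ maximalIdeal R ^ N) :
    (p : MvPowerSeries σ R) ∈ maximalIdeal (MvPowerSeries σ R) ^ N := by
  have h1 : p ∈ Ideal.map MvPolynomial.C (maximalIdeal R ^ N) := MvPolynomial.mem_map_C_iff.mpr hp
  have h2 : (p : MvPowerSeries σ R) ∈ Ideal.map (MvPolynomial.coeToMvPowerSeries.ringHom)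
      (Ideal.map MvPolynomial.C (maximalIdeal R ^ N)) := Ideal.mem_map_of_mem _ h1
  rw [Ideal.map_map] at h2
  have h3 : (MvPolynomial.coeToMvPowerSeries.ringHom (σ := σ) (R := R)).comp MvPolynomial.C = C := by
    ext a
    simp
  rw [h3, Ideal.map_pow] at h2
  exact Ideal.pow_right_mono map_C_maximalIdeal_le N h2

theorem mem_maximalIdeal_pow_of_coeff_mem [Finite σ] {N : ℕ} {f : MvPowerSeries σ R}
    (hf : ∀ α : σ →₀ ℕ, Finsupp.degree α < N → coeff α f ∈ maximalIdeal R ^ N) :
    f ∈ maximalIdeal (MvPowerSeries σ R) ^ N := by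
  have hdecomp : f = (f - (truncTotal N f : MvPolynomial σ R)) + (truncTotal N f : MvPolynomial σ R) := by
    ring
  rw [hdecomp]
  refine Ideal.add_mem _ ?_ ?_
  · refine Ideal.pow_right_mono span_X_le_maximalIdeal N (mem_span_X_pow_of_coeff_eq_zero ?_)
    intro α hα
    rw [map_sub, MvPolynomial.coeff_coe, coeff_truncTotal _ hα, sub_self]
  · refine coe_mem_maximalIdeal_pow fun α => ?_
    by_cases hα : Finsupp.degree α < N
    · rw [coeff_truncTotal _ hα]
      exact hf α hα
    · rw [coeff_truncTotal_eq_zero _ (not_lt.mp hα)]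
      exact Ideal.zero_mem _

theorem isPrecomplete_mvPowerSeries [Finite σ] [IsPrecomplete (maximalIdeal R) R] :
    IsPrecomplete (maximalIdeal (MvPowerSeries σ R)) (MvPowerSeries σ R) := by
  rw [isPrecomplete_iff]
  intro f hf
  have hf' : ∀ {m n : ℕ}, m ≤ n → f m - f n ∈ maximalIdeal (MvPowerSeries σ R) ^ m := by
    intro m n hmn
    have := hf hmn
    rw [SModEq.sub_mem, smul_eq_mul, Ideal.mul_top] at this
    exact this
  -- coefficientwise limits
  have hL : ∀ α : σ →₀ ℕ, ∃ L : R, ∀ n : ℕ,
      coeff α (f (n + Finsupp.degree α)) - L ∈ maximalIdeal R ^ n := by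
    intro α
    have hprec := (isPrecomplete_iff (I := maximalIdeal R) (M := R)).mp inferInstance
      (fun n => coeff α (f (n + Finsupp.degree α))) (by
        intro m n hmn
        rw [SModEq.sub_mem, smul_eq_mul, Ideal.mul_top, ← map_sub]
        have h1 := coeff_mem_of_mem_maximalIdeal_pow
          (hf' (show m + Finsupp.degree α ≤ n + Finsupp.degree α by omega)) α
        rwa [Nat.add_sub_cancel] at h1)
    obtain ⟨L, hL⟩ := hprec
    refine ⟨L, fun n => ?_⟩
    have := hL n
    rw [SModEq.sub_mem, smul_eq_mul, Ideal.mul_top] at this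
    exact this
  choose L hL using hL
  obtain ⟨Lp, hLp⟩ : ∃ Lp : MvPowerSeries σ R, ∀ α, coeff α Lp = L α := ⟨fun α => L α, fun α => rfl⟩
  refine ⟨Lp, fun n => ?_⟩
  rw [SModEq.sub_mem, smul_eq_mul, Ideal.mul_top]
  have h2 : f (2 * n) - Lp ∈ maximalIdeal (MvPowerSeries σ R) ^ n := by
    refine mem_maximalIdeal_pow_of_coeff_mem fun α hα => ?_
    rw [map_sub, hLp]
    have h3 := hL α (2 * n - Finsupp.degree α)
    have h4 : 2 * n - Finsupp.degree α + Finsupp.degree α = 2 * n := by omega
    rw [h4] at h3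
    exact Ideal.pow_le_pow_right (by omega) h3
  have h5 : f n - Lp = (f n - f (2 * n)) + (f (2 * n) - Lp) := by ring
  rw [h5]
  exact Ideal.add_mem _ (hf' (by omega)) h2

end Local

end Complete

section Main

variable {σ : Type*} {R : Type*} [CommRing R] [IsLocalRing R]

/-- `MvPowerSeries σ R` is complete w.r.t. its maximal ideal when `R` is complete Noetherian local
and `σ` is finite. -/
theorem isAdicComplete_mvPowerSeries [Finite σ] [IsNoetherianRing R]
    [IsAdicComplete (maximalIdeal R) R] :
    IsAdicComplete (maximalIdeal (MvPowerSeries σ R)) (MvPowerSeries σ R) :=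
  { toIsHausdorff := inferInstance
    toIsPrecomplete := isPrecomplete_mvPowerSeries }

omit [IsLocalRing R] in
theorem isLocalHom_C : IsLocalHom (C : R →+* MvPowerSeries σ R) := by
  constructor
  intro a ha
  rw [isUnit_iff_constantCoeff, constantCoeff_C] at ha
  exact ha

omit [IsLocalRing R] in
theorem isLocalHom_algebraMap_mvPowerSeries :
    IsLocalHom (algebraMap R (MvPowerSeries σ R)) := by
  constructor
  intro a ha
  rw [MvPowerSeries.algebraMap_apply, Algebra.algebraMap_self, RingHom.id_apply,
    isUnit_iff_constantCoeff, constantCoeff_C] at ha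
  exact ha

theorem sub_C_constantCoeff_mem_maximalIdeal (f : MvPowerSeries σ R) :
    f - C (constantCoeff f) ∈ maximalIdeal (MvPowerSeries σ R) := by
  rw [mem_maximalIdeal, mem_nonunits_iff, isUnit_iff_constantCoeff, map_sub, constantCoeff_C,
    sub_self]
  exact not_isUnit_zero

theorem residue_comp_C_surjective :
    Function.Surjective (residue (MvPowerSeries σ R) ∘ (C : R →+* MvPowerSeries σ R)) := by
  intro x
  obtain ⟨f, rfl⟩ := residue_surjective x
  refine ⟨constantCoeff f, ?_⟩
  rw [Function.comp_apply, eq_comm, ← sub_eq_zero, ← map_sub, residue_eq_zero_iff]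
  exact sub_C_constantCoeff_mem_maximalIdeal f

theorem residue_comp_algebraMap_surjective :
    Function.Surjective (residue (MvPowerSeries σ R) ∘ algebraMap R (MvPowerSeries σ R)) := by
  intro x
  obtain ⟨a, ha⟩ := residue_comp_C_surjective x
  refine ⟨a, ?_⟩
  rw [← ha, Function.comp_apply, Function.comp_apply, MvPowerSeries.algebraMap_apply,
    Algebra.algebraMap_self, RingHom.id_apply]

theorem finite_residueField_mvPowerSeries [Finite (ResidueField R)] :
    Finite (ResidueField (MvPowerSeries σ R)) := by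
  haveI : IsLocalHom (C : R →+* MvPowerSeries σ R) := isLocalHom_C
  refine Finite.of_surjective (ResidueField.map (C : R →+* MvPowerSeries σ R)) ?_
  intro x
  obtain ⟨a, ha⟩ := residue_comp_C_surjective x
  refine ⟨residue R a, ?_⟩
  rw [← ha]
  rfl

theorem finite_quotient_maximalIdeal_pow_mvPowerSeries [Finite σ] [IsNoetherianRing R]
    [Finite (ResidueField R)] (n : ℕ) :
    Finite (MvPowerSeries σ R ⧸ maximalIdeal (MvPowerSeries σ R) ^ n) := by
  haveI := finite_residueField_mvPowerSeries (σ := σ) (R := R)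
  exact IsLocalRing.finite_quotient_iff.mpr ⟨n, le_rfl⟩

theorem sub_truncTotal_mem_maximalIdeal_pow [Finite σ] (f : MvPowerSeries σ R) (N : ℕ) :
    f - (truncTotal N f : MvPolynomial σ R) ∈ maximalIdeal (MvPowerSeries σ R) ^ N :=
  Ideal.pow_right_mono span_X_le_maximalIdeal N (sub_truncTotal_mem_span_X_pow f N)

theorem maximalIdeal_mvPowerSeries_eq [Finite σ] :
    maximalIdeal (MvPowerSeries σ R) =
      (maximalIdeal R).map (C : R →+* MvPowerSeries σ R) ⊔
        Ideal.span (Set.range (X : σ → MvPowerSeries σ R)) := by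
  apply le_antisymm
  · intro f hf
    have h0 : constantCoeff f ∈ maximalIdeal R := by
      rw [mem_maximalIdeal, mem_nonunits_iff, isUnit_iff_constantCoeff] at hf
      exact hf
    have hdecomp : f = C (constantCoeff f) + (f - C (constantCoeff f)) := by ring
    rw [hdecomp]
    refine Ideal.add_mem _ (Ideal.mem_sup_left (Ideal.mem_map_of_mem _ h0)) (Ideal.mem_sup_right ?_)
    have := mem_span_X_pow_of_coeff_eq_zero (n := 1) (f := f - C (constantCoeff f)) (by
      intro α hα
      have hα0 : α = 0 := by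
        have h1 : Finsupp.degree α = 0 := by omega
        ext i
        have := (Finsupp.degree_eq_zero_iff α).mp h1
        simp [this]
      rw [hα0, coeff_zero_eq_constantCoeff, map_sub, constantCoeff_C, sub_self])
    rwa [pow_one] at this
  · exact sup_le map_C_maximalIdeal_le span_X_le_maximalIdeal

end Main

section Eval

variable {σ : Type*} {R : Type*} [CommRing R] [Finite σ] {A : Type*} [CommRing A] [Algebra R A]

theorem aeval_mem_of_mem_idealOfVars_pow (a : σ → A) (n : ℕ) {p : MvPolynomial σ R}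
    (hp : p ∈ MvPolynomial.idealOfVars σ R ^ n) :
    MvPolynomial.aeval a p ∈ Ideal.span (Set.range a) ^ n := by
  have h1 : MvPolynomial.aeval a p ∈
      (MvPolynomial.idealOfVars σ R ^ n).map (MvPolynomial.aeval a : MvPolynomial σ R →ₐ[R] A) :=
    Ideal.mem_map_of_mem _ hp
  rw [Ideal.map_pow, Ideal.map_span, ← Set.range_comp] at h1
  have h2 : (⇑(MvPolynomial.aeval a : MvPolynomial σ R →ₐ[R] A) ∘ MvPolynomial.X) = a := by
    ext i
    simp
  rwa [h2] at h1

/-- Evaluation of power series at a family generating a nilpotent ideal. -/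
theorem exists_algHom_eval (a : σ → A) {n : ℕ} (ha : Ideal.span (Set.range a) ^ n = ⊥) :
    ∃ u : MvPowerSeries σ R →ₐ[R] A, (∀ i, u (X i) = a i) ∧
      ∀ p : MvPolynomial σ R, u (p : MvPowerSeries σ R) = MvPolynomial.aeval a p := by
  have hker : ∀ p ∈ MvPolynomial.idealOfVars σ R ^ n,
      (MvPolynomial.aeval a : MvPolynomial σ R →ₐ[R] A) p = 0 := by
    intro p hp
    have := aeval_mem_of_mem_idealOfVars_pow a n hp
    rwa [ha, Ideal.mem_bot] at this
  let v : (MvPolynomial σ R ⧸ MvPolynomial.idealOfVars σ R ^ n) →ₐ[R] A :=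
    Ideal.Quotient.liftₐ _ (MvPolynomial.aeval a) hker
  let u : MvPowerSeries σ R →ₐ[R] A := v.comp ((truncTotalAlgHom σ R n).restrictScalars R)
  have hu : ∀ p : MvPolynomial σ R, u (p : MvPowerSeries σ R) = MvPolynomial.aeval a p := by
    intro p
    have h1 : (truncTotalAlgHom σ R n) (p : MvPowerSeries σ R) =
        Ideal.Quotient.mk (MvPolynomial.idealOfVars σ R ^ n) p := by
      exact (truncTotalAlgHom σ R n).commutes p
    show v ((truncTotalAlgHom σ R n) (p : MvPowerSeries σ R)) = _
    rw [h1]
    rfl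
  refine ⟨u, fun i => ?_, hu⟩
  have := hu (MvPolynomial.X i)
  rwa [MvPolynomial.coe_X, MvPolynomial.aeval_X] at this

/-- An algebra hom out of a power series ring, whose values on the variables generate a
nilpotent ideal, is determined by polynomial evaluation of truncations. -/
theorem algHom_apply_eq_aeval_truncTotal (u : MvPowerSeries σ R →ₐ[R] A) {n : ℕ}
    (hu : Ideal.span (Set.range fun i => u (X i)) ^ n = ⊥) (f : MvPowerSeries σ R) :
    u f = MvPolynomial.aeval (fun i => u (X i)) (truncTotal n f) := by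
  have h1 : u (f - (truncTotal n f : MvPolynomial σ R)) = 0 := by
    have h2 := sub_truncTotal_mem_span_X_pow f n
    have h3 : u (f - (truncTotal n f : MvPolynomial σ R)) ∈
        (Ideal.span (Set.range (X : σ → MvPowerSeries σ R)) ^ n).map u := Ideal.mem_map_of_mem _ h2
    rw [Ideal.map_pow, Ideal.map_span, ← Set.range_comp] at h3
    have h4 : (⇑u ∘ (X : σ → MvPowerSeries σ R)) = fun i => u (X i) := rfl
    rw [h4, hu, Ideal.mem_bot] at h3
    exact h3
  rw [map_sub, sub_eq_zero] at h1
  rw [h1]
  have h5 : (u.comp (MvPolynomial.coeToMvPowerSeries.algHom R)) =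
      MvPolynomial.aeval (fun i => u (X i)) := by
    apply MvPolynomial.algHom_ext
    intro i
    simp
  have := congrArg (fun w => w (truncTotal n f)) h5
  simpa using this

theorem algHom_ext_of_nilpotent (u v : MvPowerSeries σ R →ₐ[R] A) {n : ℕ}
    (hu : Ideal.span (Set.range fun i => u (X i)) ^ n = ⊥) (huv : ∀ i, u (X i) = v (X i)) :
    u = v := by
  have hv : Ideal.span (Set.range fun i => v (X i)) ^ n = ⊥ := by
    have : (fun i => v (X i)) = fun i => u (X i) := funext fun i => (huv i).symm
    rw [this]; exact hu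
  ext f
  rw [algHom_apply_eq_aeval_truncTotal u hu f, algHom_apply_eq_aeval_truncTotal v hv f]
  have : (fun i => v (X i)) = fun i => u (X i) := funext fun i => (huv i).symm
  rw [this]

theorem algHom_apply_mem_adjoin (u : MvPowerSeries σ R →ₐ[R] A) {n : ℕ}
    (hu : Ideal.span (Set.range fun i => u (X i)) ^ n = ⊥) (f : MvPowerSeries σ R) :
    u f ∈ Algebra.adjoin R (Set.range fun i => u (X i)) := by
  rw [algHom_apply_eq_aeval_truncTotal u hu f, Algebra.adjoin_range_eq_range_aeval]
  exact ⟨_, rfl⟩

theorem algHom_range_eq_adjoin (u : MvPowerSeries σ R →ₐ[R] A) {n : ℕ}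
    (hu : Ideal.span (Set.range fun i => u (X i)) ^ n = ⊥) :
    u.range = Algebra.adjoin R (Set.range fun i => u (X i)) := by
  apply le_antisymm
  · rintro _ ⟨f, rfl⟩
    exact algHom_apply_mem_adjoin u hu f
  · rw [Algebra.adjoin_le_iff]
    rintro _ ⟨i, rfl⟩
    exact ⟨X i, rfl⟩

end Eval

end Fermat.Agent.Lib.Helper7
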