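import Mathlib

set_option autoImplicit false

namespace Fermat.Agent.Lib.Helper7

open CategoryTheory Abelian IsLocalRing Module RingTheory.Sequence

universe u

variable {L : Type u} [CommRing L] [IsLocalRing L]

/-- Devissage: if the residue field has projective dimension `≤ n`, so does every module of
finite length. -/
theorem hasProjectiveDimensionLE_of_isFiniteLength (n : ℕ)
    (hk : HasProjectiveDimensionLE (ModuleCat.of L (L ⧸ maximalIdeal L)) n)
    (T : Type u) [AddCommGroup T] [Module L T] (hT : IsFiniteLength L T) :
    HasProjectiveDimensionLE (ModuleCat.of L T) n := by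
  induction hT with
  | @of_subsingleton M _ _ _ =>
    have hz : Limits.IsZero (ModuleCat.of L M) := ModuleCat.isZero_of_subsingleton _
    have := hz.hasProjectiveDimensionLT_zero
    exact hasProjectiveDimensionLT_of_ge _ 0 (n + 1) (Nat.zero_le _)
  | @of_simple_quotient M _ _ S hS hfl ih =>
    -- the short exact sequence `0 → ker (mkQ S) → M → M ⧸ S → 0`
    have hsurj : Function.Surjective S.mkQ := S.mkQ_surjective
    have hSE := LinearMap.shortExact_shortComplexKer hsurj
    -- the quotient is isomorphic to the residue field
    obtain ⟨I, hI, ⟨e⟩⟩ := isSimpleModule_iff_quot_maximal.mp hS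
    have hIeq : I = maximalIdeal L := IsLocalRing.eq_maximalIdeal hI
    subst hIeq
    have h3 : HasProjectiveDimensionLE (ModuleCat.of L (M ⧸ S)) n := by
      have := hk
      exact ModuleCat.hasProjectiveDimensionLE_of_linearEquiv
        (M := ModuleCat.of L (L ⧸ maximalIdeal L)) (N := ModuleCat.of L (M ⧸ S)) e.symm n
    have h1 : HasProjectiveDimensionLE (ModuleCat.of L (LinearMap.ker S.mkQ)) n := by
      have := ih
      exact ModuleCat.hasProjectiveDimensionLE_of_linearEquiv
        (M := ModuleCat.of L S) (N := ModuleCat.of L (LinearMap.ker S.mkQ))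
        (LinearEquiv.ofEq _ _ S.ker_mkQ.symm) n
    exact hSE.hasProjectiveDimensionLT_X₂ (n + 1) h1 h3

variable [IsNoetherianRing L]

/-- A finitely generated module over a Noetherian local ring whose maximal ideal is generated by
a regular sequence `xs` of length `n`, admitting a regular sequence `ys` of length `n` inside the
maximal ideal with `N ⧸ (ys) N` of finite length, is free. -/
theorem free_of_isRegular
    {N : Type u} [AddCommGroup N] [Module L N] [Module.Finite L N]
    (xs : List L) (hxs : IsRegular L xs) (hspan : Ideal.ofList xs = maximalIdeal L)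
    (ys : List L) (hys : IsRegular N ys) (hmem : ∀ y ∈ ys, y ∈ maximalIdeal L)
    (hlen : ys.length = xs.length)
    (hfl : IsFiniteLength L (N ⧸ Ideal.ofList ys • (⊤ : Submodule L N))) :
    Module.Free L N := by
  -- `N` is nontrivial
  have hNnt : Nontrivial N := by
    by_contra hN
    rw [not_nontrivial_iff_subsingleton] at hN
    exact hys.2 (Subsingleton.elim _ _)
  -- projective dimension of the residue field
  have hpdk : projectiveDimension (ModuleCat.of L (L ⧸ maximalIdeal L)) = xs.length := by
    have h := ModuleCat.projectiveDimension_quotient_eq_length.{u} (R := L) xs hxs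
    rw [← h]
    refine ModuleCat.projectiveDimension_eq_of_linearEquiv
      (M := ModuleCat.of L (L ⧸ maximalIdeal L))
      (N := ModuleCat.of L (Shrink.{u} (L ⧸ Ideal.ofList xs))) ?_
    exact ((Submodule.quotEquivOfEq _ _ hspan.symm)).trans (Shrink.linearEquiv L _).symm
  have hk : HasProjectiveDimensionLE (ModuleCat.of L (L ⧸ maximalIdeal L)) xs.length :=
    (projectiveDimension_le_iff _ _).mp hpdk.le
  -- projective dimension of the finite length quotient
  have hT := hasProjectiveDimensionLE_of_isFiniteLength xs.length hk _ hfl
  have hpdT := ModuleCat.projectiveDimension_quotient_eq_add_length_of_isWeaklyRegular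
    (ModuleCat.of L N) ys hys.1 hmem
  have hle : projectiveDimension (ModuleCat.of L N) + (ys.length : WithBot ℕ∞) ≤
      (0 : WithBot ℕ∞) + (ys.length : WithBot ℕ∞) := by
    rw [← hpdT, zero_add, hlen]
    exact (projectiveDimension_le_iff _ _).mpr hT
  have hpd0 : projectiveDimension (ModuleCat.of L N) ≤ 0 :=
    ENat.WithBot.add_le_add_natCast_right_iff.mp hle
  have hproj : HasProjectiveDimensionLE (ModuleCat.of L N) 0 := by
    have := (projectiveDimension_le_iff (ModuleCat.of L N) 0).mp (by simpa using hpd0)
    exact this
  have hP : Projective (ModuleCat.of L N) :=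
    (projective_iff_hasProjectiveDimensionLE_zero _).mpr hproj
  have hP' : Module.Projective L N := (IsProjective.iff_projective _).mpr hP
  exact Module.free_of_flat_of_isLocalRing

end Fermat.Agent.Lib.Helper7
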